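/-
GATE-Z (S15) / count, ARITH hypothesis form (helper20 6089 (b); helper90): **the arithmetic inputs
of the count as named binders on a marked piece, and their consequences for the local factor
`t(𝒫)`**, in exactly the shape consumed by `Dev.Marked.sb_count` / `sb_bound` (Mathlib only).

* `CobHyp 𝒲`    : every plain Selmer cocycle of `𝒲` is a coboundary
                  (Kummer over `ℚ` for a `μ_r`-piece, `r` odd: unit everywhere ⟹ `a = ±1 = bʳ`);
* `RealHyp 𝒲 c` : a plain Selmer cocycle of `𝒲` vanishing at `c` is `0`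
                  (`r = 2`: unit everywhere ⟹ `a = ±1`, and `x c = 0` ⟹ `a > 0`;
                  for odd `r` and a trivial-character piece it follows from Minkowski);
* `piece_hT_of_cobHyp`, `piece_hT_of_realHyp`, `piece_hT_of_tab_eq_one` : for a piece
  `𝒱.piece T S` of a flag they give `Finite Sel ∧ t(piece) ≤ #N`,
  `N = pieceSub (ker (1 + c)) T S`, i.e. the binders `hSel`, `hT` of `sb_count`.
-/
import Mathlib
import Fermat.Agent.GZ.Dev.Real

set_option autoImplicit false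

namespace Fermat.Agent.GZ.Dev.Arith

variable {G : Type*} [Group G] {D I : Subgroup G}

section Piece

variable {P : Type*} [AddCommGroup P] [DistribMulAction G P]

/-- every plain Selmer cocycle is a coboundary. -/
def CobHyp (𝒲 : Marked D I P) : Prop := ∀ x ∈ 𝒲.SelZ, ∃ w : P, x = dCob G w

/-- a plain Selmer cocycle vanishing at `c` is `0`. -/
def RealHyp (𝒲 : Marked D I P) (c : G) : Prop := ∀ x ∈ 𝒲.SelZ, x c = 0 → x = 0

theorem sel_subsingleton_of_cobHyp {𝒲 : Marked D I P} (h : CobHyp 𝒲) : Subsingleton 𝒲.Sel := by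
  have hz : ∀ q : 𝒲.Sel, q = 0 := by
    intro q
    induction q using QuotientAddGroup.induction_on with
    | H a =>
      obtain ⟨w, hw⟩ := h a a.2
      exact (QuotientAddGroup.eq_zero_iff a).mpr ⟨w, Subtype.ext hw.symm⟩
  exact ⟨fun a b => by rw [hz a, hz b]⟩

/-- **`μ_r`-line (`r` odd)**: `CobHyp` gives `t ≤ #P`. -/
theorem tab_le_card_of_cobHyp {𝒲 : Marked D I P} [Finite P] (h : CobHyp 𝒲) :
    Finite 𝒲.Sel ∧ 𝒲.tab ≤ (Nat.card P : ℚ) := by
  haveI := sel_subsingleton_of_cobHyp h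
  refine ⟨Finite.of_subsingleton, 𝒲.tab_le_card ?_⟩
  rw [Nat.card_of_subsingleton (0 : 𝒲.Sel)]
  exact Nat.card_pos

/-- finiteness of the plain Selmer group of a finite module with trivial action, detected at
`c`. -/
theorem finite_sel_of_realHyp {𝒲 : Marked D I P} [Finite P] {c : G} (h : RealHyp 𝒲 c) :
    Finite 𝒲.Sel := by
  let ev : 𝒲.SelZ →+ P :=
    { toFun := fun x => (x : G → P) c
      map_zero' := rfl
      map_add' := fun _ _ => rfl }
  have hinj : Function.Injective ev := by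
    rw [injective_iff_map_eq_zero]
    intro x hx
    exact Subtype.ext (h x x.2 hx)
  haveI : Finite 𝒲.SelZ := Finite.of_injective ev hinj
  infer_instance

/-- **all lines at `r = 2` (and the `ℤ/r`-lines)**: trivial action + `RealHyp` give `t ≤ #N` for
every `N` containing the values at `c`. -/
theorem tab_le_card_of_realHyp {𝒲 : Marked D I P} [Finite P]
    (htriv : ∀ (σ : G) (w : P), σ • w = w) {c : G} (N : AddSubgroup P)
    (hN : ∀ x ∈ 𝒲.SelZ, x c ∈ N) (h : RealHyp 𝒲 c) :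
    Finite 𝒲.Sel ∧ 𝒲.tab ≤ (Nat.card N : ℚ) :=
  ⟨finite_sel_of_realHyp h, 𝒲.tab_le_card_of_eval htriv c N hN h⟩

end Piece

section Flag

variable {W : Type*} [AddCommGroup W] [DistribMulAction G W]

/-- piece with trivial action, detected at `c` (`r = 2`: every piece; `r` odd: `ℤ/r`-pieces). -/
theorem piece_hT_of_realHyp (𝒱 : Marked D I W) [Finite W] {c : G} (hX : 𝒱.X ≤ realX c)
    (T S : StableSub G W)
    (htriv : ∀ (σ : G) (q : ↥S.U ⧸ (T.sub S).U), σ • q = q)
    (h : RealHyp (𝒱.piece T S) c) :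
    Finite (𝒱.piece T S).Sel ∧
      (𝒱.piece T S).tab ≤ (Nat.card (pieceSub (onePlus c : W →+ W).ker T S) : ℚ) :=
  tab_le_card_of_realHyp htriv _
    (fun _ hx => piece_X_apply_mem 𝒱 c hX T S hx.1) h

/-- piece on which `c = -1`, `2` invertible (`μ_r`-pieces, `r` odd), with `CobHyp`. -/
theorem piece_hT_of_cobHyp (𝒱 : Marked D I W) [Finite W] {c : G} (hc : c * c = 1)
    (T S : StableSub G W)
    (hneg : ∀ q : ↥S.U ⧸ (T.sub S).U, c • q = -q)
    (h2 : ∀ q : ↥S.U ⧸ (T.sub S).U, ∃ q', q' + q' = q)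
    (h : CobHyp (𝒱.piece T S)) :
    Finite (𝒱.piece T S).Sel ∧
      (𝒱.piece T S).tab ≤ (Nat.card (pieceSub (onePlus c : W →+ W).ker T S) : ℚ) := by
  obtain ⟨hfin, hle⟩ := tab_le_card_of_cobHyp h
  refine ⟨hfin, ?_⟩
  rw [pieceSub_ker_eq_top c hc T S hneg h2]
  have : Nat.card (⊤ : AddSubgroup (↥S.U ⧸ (T.sub S).U)) = Nat.card (↥S.U ⧸ (T.sub S).U) :=
    Nat.card_congr (AddSubgroup.topEquiv (G := ↥S.U ⧸ (T.sub S).U)).toEquiv
  rw [this]
  exact hle

/-- piece with `t = 1` (Minkowski: `Arith.tab_eq_one_of_mink`). -/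
theorem piece_hT_of_tab_eq_one (𝒱 : Marked D I W) [Finite W] (c : G) (T S : StableSub G W)
    (h : Finite (𝒱.piece T S).Sel ∧ (𝒱.piece T S).tab = 1) :
    Finite (𝒱.piece T S).Sel ∧
      (𝒱.piece T S).tab ≤ (Nat.card (pieceSub (onePlus c : W →+ W).ker T S) : ℚ) := by
  refine ⟨h.1, ?_⟩
  rw [h.2]
  exact_mod_cast (Nat.card_pos : 0 < Nat.card (pieceSub (onePlus c : W →+ W).ker T S))

end Flag

end Fermat.Agent.GZ.Dev.Arith
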