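/-
GATE-Z (S15) / count, ARITH leaf GZ-ARITH-KUMQ (helper90): **the `ℚ`-core of Kummer theory over
`ℚ`** (no modules, no cocycles).

`β ∈ ℚ̄ˣ` with `βʳ = a ∈ ℚˣ`.  If for every prime `l` there is ONE valuation subring `A | l` of `ℚ̄`
and `γ ∈ ℚ̄ˣ`, `c ∈ ℚˣ` with `γʳ = cʳ a` such that
  * `γ` is fixed by the inertia group `I_A`   ("unramified at `l`"), or
  * `γʳ` is a unit of `A`                      ("unit class at `l`"),
then `r ∣ v_l(a)` for all `l`, so `a = ± bʳ` (`kumQ`).  Consequences: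
  * `r` odd: `β = ζ · b` with `ζʳ = 1`, `b ∈ ℚ` (`kumQ_odd`);
  * `r = 2` and `c₀ β = β` for a `c₀ ∈ G_ℚ` with `c₀ √-1 = -√-1`: `β ∈ ℚ` (`kumQ_two`).
-/
import Mathlib
import Fermat.Agent.GL.Local.InertiaField

set_option autoImplicit false

namespace Fermat.Agent.GZ.Dev.Arith

open Fermat.Agent.Common_helper32

/-! ### perfect powers -/

/-- a positive natural number all of whose prime exponents are divisible by `r` is an `r`-th
power. -/
theorem exists_eq_pow_of_dvd_factorization {n r : ℕ} (hn : n ≠ 0)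
    (h : ∀ l : ℕ, l.Prime → r ∣ n.factorization l) : ∃ m : ℕ, n = m ^ r := by
  refine ⟨∏ p ∈ n.primeFactors, p ^ (n.factorization p / r), ?_⟩
  rw [← Finset.prod_pow]
  have h1 : ∀ p ∈ n.primeFactors, (p ^ (n.factorization p / r)) ^ r = p ^ n.factorization p := by
    intro p hp
    rw [← pow_mul, Nat.div_mul_cancel (h p (Nat.prime_of_mem_primeFactors hp))]
  rw [Finset.prod_congr rfl h1]
  have h2 := Nat.factorization_prod_pow_eq_self hn
  rw [Finsupp.prod, Nat.support_factorization] at h2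
  exact h2.symm

/-! ### the valuation of a rational number at `A | l` -/

section Val

variable (A : ValuationSubring Qb) {l : ℕ} (hl : l.Prime) (hA : (l : Qb) ∈ A.nonunits)

include hl hA in
/-- a natural number prime to `l` is a unit of `A`. -/
theorem valuation_natCast_of_not_dvd {m : ℕ} (hm : ¬ l ∣ m) : A.valuation (m : Qb) = 1 := by
  have hle : A.valuation (m : Qb) ≤ 1 := (A.valuation_le_one_iff _).mpr (natCast_mem A m)
  refine le_antisymm hle (not_lt.mp fun hlt => ?_)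
  -- Bezout
  have hcop : IsCoprime (m : ℤ) (l : ℤ) := by
    rw [Int.isCoprime_iff_gcd_eq_one, Int.gcd_natCast_natCast]
    exact ((Nat.Prime.coprime_iff_not_dvd hl).mpr hm).symm
  obtain ⟨s, t, hst⟩ := hcop
  have hvl : A.valuation (l : Qb) < 1 := (A.mem_nonunits_iff).mp hA
  have hs : A.valuation ((s : ℤ) : Qb) ≤ 1 := (A.valuation_le_one_iff _).mpr (intCast_mem A s)
  have ht : A.valuation ((t : ℤ) : Qb) ≤ 1 := (A.valuation_le_one_iff _).mpr (intCast_mem A t)
  have h1 : ((s : ℤ) : Qb) * (m : Qb) + ((t : ℤ) : Qb) * (l : Qb) = 1 := by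
    have := congrArg (fun z : ℤ => (z : Qb)) hst
    push_cast at this
    exact this
  have h2 : A.valuation (((s : ℤ) : Qb) * (m : Qb) + ((t : ℤ) : Qb) * (l : Qb)) < 1 := by
    apply lt_of_le_of_lt (Valuation.map_add _ _ _)
    apply max_lt
    · rw [map_mul]
      calc A.valuation ((s : ℤ) : Qb) * A.valuation (m : Qb)
          ≤ 1 * A.valuation (m : Qb) := by gcongr
        _ < 1 := by rw [one_mul]; exact hlt
    · rw [map_mul]
      calc A.valuation ((t : ℤ) : Qb) * A.valuation (l : Qb)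
          ≤ 1 * A.valuation (l : Qb) := by gcongr
        _ < 1 := by rw [one_mul]; exact hvl
  rw [h1, map_one] at h2
  exact lt_irrefl _ h2

include hl hA in
/-- `v_A(n) = v_A(l) ^ v_l(n)` for a nonzero natural number `n`. -/
theorem valuation_natCast {n : ℕ} (hn : n ≠ 0) :
    A.valuation (n : Qb) = A.valuation (l : Qb) ^ (n.factorization l) := by
  have h := Nat.ordProj_mul_ordCompl_eq_self n l
  have h' : (n : Qb) = (l : Qb) ^ (n.factorization l) * ((n / l ^ n.factorization l : ℕ) : Qb) := by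
    conv_lhs => rw [← h]
    push_cast
    ring
  rw [h', map_mul, map_pow, valuation_natCast_of_not_dvd A hl hA (Nat.not_dvd_ordCompl hl hn),
    mul_one]

/-- the `l`-adic exponent of a rational number. -/
def ratExp (l : ℕ) (a : ℚ) : ℤ := (a.num.natAbs.factorization l : ℤ) - (a.den.factorization l : ℤ)

include hl hA in
/-- `v_A(a) = v_A(l) ^ v_l(a)` for a nonzero rational number `a`. -/
theorem valuation_ratCast {a : ℚ} (ha : a ≠ 0) :
    A.valuation ((a : ℚ) : Qb) = A.valuation (l : Qb) ^ ratExp l a := by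
  have hnum : a.num.natAbs ≠ 0 := by
    rw [Ne, Int.natAbs_eq_zero, Rat.num_eq_zero]; exact ha
  have hden : a.den ≠ 0 := a.den_nz
  have hv0 : A.valuation (l : Qb) ≠ 0 :=
    (Valuation.ne_zero_iff _).mpr (by exact_mod_cast hl.ne_zero)
  have hcast : ((a : ℚ) : Qb) = ((a.num : ℤ) : Qb) / ((a.den : ℕ) : Qb) := by
    conv_lhs => rw [← Rat.num_div_den a]
    push_cast
    rfl
  have habs : A.valuation ((a.num : ℤ) : Qb) = A.valuation ((a.num.natAbs : ℕ) : Qb) := by
    rcases Int.natAbs_eq a.num with h | h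
    · have : ((a.num : ℤ) : Qb) = ((a.num.natAbs : ℕ) : Qb) := by
        conv_lhs => rw [h]
        exact Int.cast_natCast _
      rw [this]
    · have : ((a.num : ℤ) : Qb) = -((a.num.natAbs : ℕ) : Qb) := by
        conv_lhs => rw [h]
        rw [Int.cast_neg, Int.cast_natCast]
      rw [this, Valuation.map_neg]
  rw [hcast, map_div₀, habs, valuation_natCast A hl hA hnum, valuation_natCast A hl hA hden,
    ratExp, zpow_sub₀ hv0, zpow_natCast, zpow_natCast]

include hl hA in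
theorem zpow_valuation_injective {m n : ℤ}
    (h : A.valuation (l : Qb) ^ m = A.valuation (l : Qb) ^ n) : m = n := by
  have hv0 : A.valuation (l : Qb) ≠ 0 :=
    (Valuation.ne_zero_iff _).mpr (by exact_mod_cast hl.ne_zero)
  have hv1 : A.valuation (l : Qb) < 1 := (A.mem_nonunits_iff).mp hA
  exact (zpow_right_strictAnti₀ (zero_lt_iff.2 hv0) hv1).injective h

end Val

/-! ### the local step -/

/-- the local condition at `A`. -/
def KumLoc (r : ℕ) (a : ℚ) (A : ValuationSubring Qb) : Prop :=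
  ∃ (γ : Qb) (c : ℚ), c ≠ 0 ∧ γ ≠ 0 ∧ γ ^ r = ((c ^ r * a : ℚ) : Qb) ∧
    ((∀ σ ∈ A.inertiaSubgroupIn ℚ, σ γ = γ) ∨ (γ ^ r ∈ A ∧ (γ ^ r)⁻¹ ∈ A))

theorem dvd_ratExp_of_kumLoc {r : ℕ} {a : ℚ} (ha : a ≠ 0) {l : ℕ} (hl : l.Prime)
    (A : ValuationSubring Qb) (hA : A.LiesOverPrime l) (h : KumLoc r a A) :
    (r : ℤ) ∣ ratExp l a := by
  have hA' : (l : Qb) ∈ A.nonunits := hA
  obtain ⟨γ, c, hc, hγ, hγr, hcase⟩ := h
  have hv0 : A.valuation (l : Qb) ≠ 0 :=
    (Valuation.ne_zero_iff _).mpr (by exact_mod_cast hl.ne_zero)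
  -- `v(γ^r) = v(l)^(r n)`
  have hn : ∃ n : ℤ, A.valuation (γ ^ r) = A.valuation (l : Qb) ^ ((r : ℤ) * n) := by
    rcases hcase with hfix | ⟨h1, h2⟩
    · obtain ⟨n, hn1, hn2⟩ :=
        GL.Local.InertiaField.exists_zpow_unit_of_fixed A hl hA' γ hγ hfix
      refine ⟨n, ?_⟩
      have hvq : A.valuation (γ / (l : Qb) ^ n) = 1 := by
        apply le_antisymm ((A.valuation_le_one_iff _).mpr hn1)
        have h3 : A.valuation (γ / (l : Qb) ^ n)⁻¹ ≤ 1 := (A.valuation_le_one_iff _).mpr hn2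
        rw [map_inv₀] at h3
        have hne : A.valuation (γ / (l : Qb) ^ n) ≠ 0 := by
          rw [Valuation.ne_zero_iff]
          exact div_ne_zero hγ (zpow_ne_zero _ (by exact_mod_cast hl.ne_zero))
        rwa [inv_le_one₀ (zero_lt_iff.mpr hne)] at h3
      rw [map_div₀, map_zpow₀, div_eq_one_iff_eq (zpow_ne_zero _ hv0)] at hvq
      rw [map_pow, hvq, ← zpow_natCast, ← zpow_mul, mul_comm]
    · refine ⟨0, ?_⟩
      rw [mul_zero, zpow_zero]
      apply le_antisymm ((A.valuation_le_one_iff _).mpr h1)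
      have h3 : A.valuation (γ ^ r)⁻¹ ≤ 1 := (A.valuation_le_one_iff _).mpr h2
      rw [map_inv₀] at h3
      have hne : A.valuation (γ ^ r) ≠ 0 := by
        rw [Valuation.ne_zero_iff]
        exact pow_ne_zero _ hγ
      rwa [inv_le_one₀ (zero_lt_iff.mpr hne)] at h3
  obtain ⟨n, hn⟩ := hn
  have hca : (c ^ r * a : ℚ) ≠ 0 := mul_ne_zero (pow_ne_zero _ hc) ha
  rw [hγr] at hn
  have h4 : ((c ^ r * a : ℚ) : Qb) = ((c : ℚ) : Qb) ^ r * ((a : ℚ) : Qb) := by push_cast; rfl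
  rw [h4, map_mul, map_pow, valuation_ratCast A hl hA' hc, valuation_ratCast A hl hA' ha,
    ← zpow_natCast, ← zpow_mul, ← zpow_add₀ hv0] at hn
  have h5 := zpow_valuation_injective A hl hA' hn
  refine ⟨n - ratExp l c, ?_⟩
  have : ratExp l a = (r : ℤ) * n - ratExp l c * (r : ℤ) := by rw [← h5]; ring
  rw [this]; ring

/-! ### the global step -/

theorem exists_eq_pow_or_neg_pow {r : ℕ} {a : ℚ} (ha : a ≠ 0)
    (h : ∀ l : ℕ, l.Prime → (r : ℤ) ∣ ratExp l a) : ∃ b : ℚ, a = b ^ r ∨ a = -b ^ r := by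
  have hnum : a.num.natAbs ≠ 0 := by
    rw [Ne, Int.natAbs_eq_zero, Rat.num_eq_zero]; exact ha
  have hden : a.den ≠ 0 := a.den_nz
  have hcop : Nat.Coprime a.num.natAbs a.den := a.reduced
  -- both factorizations are divisible by `r`
  have hboth : ∀ l : ℕ, l.Prime →
      r ∣ a.num.natAbs.factorization l ∧ r ∣ a.den.factorization l := by
    intro l hl
    have hd := h l hl
    unfold ratExp at hd
    by_cases h1 : l ∣ a.num.natAbs
    · have h2 : ¬ l ∣ a.den := fun h2 =>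
        hl.one_lt.ne' (Nat.eq_one_of_dvd_coprimes hcop h1 h2)
      rw [Nat.factorization_eq_zero_of_not_dvd h2, Nat.cast_zero, sub_zero] at hd
      exact ⟨Int.natCast_dvd_natCast.mp hd, by
        rw [Nat.factorization_eq_zero_of_not_dvd h2]; exact dvd_zero r⟩
    · rw [Nat.factorization_eq_zero_of_not_dvd h1, Nat.cast_zero, zero_sub, dvd_neg] at hd
      exact ⟨by rw [Nat.factorization_eq_zero_of_not_dvd h1]; exact dvd_zero r,
        Int.natCast_dvd_natCast.mp hd⟩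
  obtain ⟨N, hN⟩ := exists_eq_pow_of_dvd_factorization hnum (fun l hl => (hboth l hl).1)
  obtain ⟨M, hM⟩ := exists_eq_pow_of_dvd_factorization hden (fun l hl => (hboth l hl).2)
  refine ⟨(N : ℚ) / (M : ℚ), ?_⟩
  have hq : a = (a.num : ℚ) / (a.den : ℚ) := (Rat.num_div_den a).symm
  rcases Int.natAbs_eq a.num with hs | hs
  · left
    rw [div_pow]
    conv_lhs => rw [hq, hs, hM, hN]
    push_cast
    rfl
  · right
    rw [div_pow]
    conv_lhs => rw [hq, hs, hM, hN]
    push_cast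
    ring

/-- **Kummer over `ℚ`, core**: local conditions at one place above every prime force
`a = ± bʳ`. -/
theorem kumQ {r : ℕ} {a : ℚ} (ha : a ≠ 0)
    (hloc : ∀ l : ℕ, l.Prime → ∃ A : ValuationSubring Qb, A.LiesOverPrime l ∧ KumLoc r a A) :
    ∃ b : ℚ, a = b ^ r ∨ a = -b ^ r :=
  exists_eq_pow_or_neg_pow ha (fun l hl => by
    obtain ⟨A, hA, hK⟩ := hloc l hl
    exact dvd_ratExp_of_kumLoc ha hl A hA hK)

/-- **`r` odd**: `β = ζ · b` with `ζʳ = 1` and `b ∈ ℚ`. -/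
theorem kumQ_odd {r : ℕ} (hr : Odd r) {a : ℚ} (ha : a ≠ 0) (β : Qb) (hβ : β ^ r = ((a : ℚ) : Qb))
    (hloc : ∀ l : ℕ, l.Prime → ∃ A : ValuationSubring Qb, A.LiesOverPrime l ∧ KumLoc r a A) :
    ∃ (b : ℚ) (ζ : Qb), b ≠ 0 ∧ ζ ^ r = 1 ∧ β = ζ * ((b : ℚ) : Qb) := by
  obtain ⟨b, hb | hb⟩ := kumQ ha hloc
  · have hb0 : b ≠ 0 := by
      rintro rfl
      rw [zero_pow hr.pos.ne'] at hb
      exact ha hb
    have hbQ : ((b : ℚ) : Qb) ≠ 0 := by exact_mod_cast hb0
    refine ⟨b, β / ((b : ℚ) : Qb), hb0, ?_, by field_simp⟩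
    rw [div_pow, hβ, hb]
    push_cast
    exact div_self (pow_ne_zero _ hbQ)
  · have hb0 : b ≠ 0 := by
      rintro rfl
      rw [zero_pow hr.pos.ne', neg_zero] at hb
      exact ha hb
    have hbQ : ((-b : ℚ) : Qb) ≠ 0 := by exact_mod_cast neg_ne_zero.mpr hb0
    refine ⟨-b, β / ((-b : ℚ) : Qb), neg_ne_zero.mpr hb0, ?_, by field_simp⟩
    have : a = (-b) ^ r := by rw [hr.neg_pow]; exact hb
    rw [div_pow, hβ, this]
    push_cast
    exact div_self (pow_ne_zero _ (by exact_mod_cast neg_ne_zero.mpr hb0))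

/-- **`r = 2`, real**: if `c₀ β = β` for some `c₀` with `c₀ √-1 = -√-1` then `β ∈ ℚ`. -/
theorem kumQ_two {a : ℚ} (ha : a ≠ 0) (β : Qb) (hβ : β ^ 2 = ((a : ℚ) : Qb))
    (hloc : ∀ l : ℕ, l.Prime → ∃ A : ValuationSubring Qb, A.LiesOverPrime l ∧ KumLoc 2 a A)
    (c₀ : Qb ≃ₐ[ℚ] Qb) (i₀ : Qb) (hi : i₀ ^ 2 = -1) (hc : c₀ i₀ = -i₀) (hfix : c₀ β = β) :
    ∃ b : ℚ, β = ((b : ℚ) : Qb) := by
  obtain ⟨b, hb | hb⟩ := kumQ ha hloc
  · -- `β² = b²`
    have h1 : (β - ((b : ℚ) : Qb)) * (β + ((b : ℚ) : Qb)) = 0 := by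
      have : β ^ 2 = ((b : ℚ) : Qb) ^ 2 := by rw [hβ, hb]; push_cast; rfl
      linear_combination this
    rcases mul_eq_zero.mp h1 with h | h
    · exact ⟨b, sub_eq_zero.mp h⟩
    · exact ⟨-b, by push_cast; exact eq_neg_of_add_eq_zero_left h⟩
  · -- `β² = -b² = (i₀ b)²`, impossible with `c₀ β = β`
    exfalso
    have hb0 : b ≠ 0 := by
      rintro rfl
      rw [zero_pow two_ne_zero, neg_zero] at hb
      exact ha hb
    have hβ0 : β ≠ 0 := by
      rintro rfl
      rw [zero_pow two_ne_zero] at hβ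
      exact ha (by exact_mod_cast hβ.symm)
    have h1 : (β - i₀ * ((b : ℚ) : Qb)) * (β + i₀ * ((b : ℚ) : Qb)) = 0 := by
      have : β ^ 2 = -((b : ℚ) : Qb) ^ 2 := by rw [hβ, hb]; push_cast; rfl
      linear_combination this - ((b : ℚ) : Qb) ^ 2 * hi
    have hcb : c₀ ((b : ℚ) : Qb) = ((b : ℚ) : Qb) := by
      have : ((b : ℚ) : Qb) = algebraMap ℚ Qb b := rfl
      rw [this, AlgEquiv.commutes]
    have hneg : c₀ β = -β := by
      rcases mul_eq_zero.mp h1 with h | h
      · have hβe : β = i₀ * ((b : ℚ) : Qb) := sub_eq_zero.mp h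
        rw [hβe, map_mul, hc, hcb]; ring
      · have hβe : β = -(i₀ * ((b : ℚ) : Qb)) := eq_neg_of_add_eq_zero_left h
        rw [hβe, map_neg, map_mul, hc, hcb]; ring
    rw [hfix] at hneg
    have : (2 : Qb) * β = 0 := by linear_combination hneg
    rcases mul_eq_zero.mp this with h | h
    · exact two_ne_zero h
    · exact hβ0 h

end Fermat.Agent.GZ.Dev.Arith
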