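/-
GATE-Z (S15) / count, arithmetic leaf GZ-SB-MINK (helper90): **Minkowski for characters of `G_ℚ`**
in the shape consumed by `Dev.Marked.tab_le_card_of_eval` / `Dev.Marked.tab_eq_one_of_trivial`.

* `hom_eq_zero_of_inertia` : an additive character `x : G_ℚ → P` with open kernel which is trivial
  on ONE inertia group above EVERY prime is `0` (from `S13.Global.eq_top_of_inertia_le`);
* `Marked.sel_subsingleton_of_mink` : for a marked module with trivial action whose admissible
  cocycles have open kernel and are unramified outside the level `p` (at one place above each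
  prime `l ≠ p`), the plain Selmer group is trivial (so `tab = 1`: the `ℤ/r`-line of the table
  for odd `r`).
-/
import Mathlib
import Fermat.Agent.S13.Global
import Fermat.Agent.GZ.Dev.Count

set_option autoImplicit false

namespace Fermat.Agent.GZ.Dev.Arith

open Fermat.Agent.Common_helper32

local notation "GQ" => (AlgebraicClosure ℚ ≃ₐ[ℚ] AlgebraicClosure ℚ)

section Hom

variable {P : Type*} [AddGroup P]

/-- **Minkowski**: a character of `G_ℚ` with open kernel, trivial on one inertia group above every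
prime, is trivial. -/
theorem hom_eq_zero_of_inertia (x : GQ → P) (hhom : ∀ σ τ : GQ, x (σ * τ) = x σ + x τ)
    (hopen : IsOpen {σ : GQ | x σ = 0})
    (hunr : ∀ l : ℕ, l.Prime → ∃ A : ValuationSubring (AlgebraicClosure ℚ), A.LiesOverPrime l ∧
      ∀ σ ∈ A.inertiaSubgroupIn ℚ, x σ = 0) : x = 0 := by
  have h1 : x 1 = 0 := by
    have := hhom 1 1
    rw [one_mul] at this
    have h' : x 1 + x 1 = x 1 + 0 := by rw [add_zero]; exact this.symm
    exact add_left_cancel h'
  have hinv : ∀ σ : GQ, x σ⁻¹ = -x σ := by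
    intro σ
    have := hhom σ σ⁻¹
    rw [mul_inv_cancel, h1] at this
    exact (neg_eq_of_add_eq_zero_right this.symm).symm
  let H : Subgroup GQ :=
    { carrier := {σ | x σ = 0}
      mul_mem' := fun {a b} ha hb => by
        change x (a * b) = 0
        rw [hhom, ha, hb, add_zero]
      one_mem' := h1
      inv_mem' := fun {a} ha => by
        change x a⁻¹ = 0
        rw [hinv, ha, neg_zero] }
  have hn : H.Normal := by
    refine ⟨fun n hn g => ?_⟩
    change x (g * n * g⁻¹) = 0
    rw [hhom, hhom, hn, add_zero, hinv, add_neg_cancel]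
  have htop : H = ⊤ := S13.Global.eq_top_of_inertia_le H hn hopen (fun l hl => by
    obtain ⟨A, hA, hI⟩ := hunr l hl
    exact ⟨A, hA, fun σ hσ => hI σ hσ⟩)
  funext σ
  have : σ ∈ H := by rw [htop]; trivial
  exact this

end Hom

section Marked

variable {D I : Subgroup GQ} {P : Type*} [AddCommGroup P] [DistribMulAction GQ P]

/-- **the `ℤ/r`-line of the table, arithmetic part**: trivial action, admissible cocycles have open
kernel and are unramified at one place above every prime `l ≠ p`, `I` contains an inertia group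
above `p`: the plain Selmer group is trivial. -/
theorem sel_subsingleton_of_mink (𝒲 : Marked D I P) (htriv : ∀ (σ : GQ) (w : P), σ • w = w)
    (p : ℕ)
    (hI : ∃ A : ValuationSubring (AlgebraicClosure ℚ), A.LiesOverPrime p ∧
      A.inertiaSubgroupIn ℚ ≤ I)
    (hopen : ∀ x ∈ 𝒲.X, IsCocycle x → IsOpen {σ : GQ | x σ = 0})
    (hunr : ∀ x ∈ 𝒲.X, IsCocycle x → ∀ l : ℕ, l.Prime → l ≠ p →
      ∃ A : ValuationSubring (AlgebraicClosure ℚ), A.LiesOverPrime l ∧
        ∀ σ ∈ A.inertiaSubgroupIn ℚ, x σ = 0) :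
    Subsingleton 𝒲.Sel := by
  have hzero : ∀ x ∈ 𝒲.SelZ, x = 0 := by
    rintro x ⟨hx1, hx2, l, hl⟩
    apply hom_eq_zero_of_inertia x
    · intro σ τ
      rw [hx2 σ τ, htriv]
    · exact hopen x hx1 hx2
    · intro q hq
      by_cases hqp : q = p
      · obtain ⟨A, hA, hAI⟩ := hI
        refine ⟨A, hqp ▸ hA, fun σ hσ => ?_⟩
        rw [hl σ (hAI hσ), htriv, sub_self]
      · exact hunr x hx1 hx2 q hq hqp
  refine ⟨fun a b => ?_⟩
  induction a using QuotientAddGroup.induction_on with
  | H a =>
    induction b using QuotientAddGroup.induction_on with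
    | H b =>
      have ha : a = 0 := Subtype.ext (hzero a a.2)
      have hb : b = 0 := Subtype.ext (hzero b b.2)
      rw [ha, hb]

/-- the same as a statement on the local factor: `tab = 1`. -/
theorem tab_eq_one_of_mink (𝒲 : Marked D I P) [Finite P] (htriv : ∀ (σ : GQ) (w : P), σ • w = w)
    (p : ℕ)
    (hI : ∃ A : ValuationSubring (AlgebraicClosure ℚ), A.LiesOverPrime p ∧
      A.inertiaSubgroupIn ℚ ≤ I)
    (hopen : ∀ x ∈ 𝒲.X, IsCocycle x → IsOpen {σ : GQ | x σ = 0})
    (hunr : ∀ x ∈ 𝒲.X, IsCocycle x → ∀ l : ℕ, l.Prime → l ≠ p →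
      ∃ A : ValuationSubring (AlgebraicClosure ℚ), A.LiesOverPrime l ∧
        ∀ σ ∈ A.inertiaSubgroupIn ℚ, x σ = 0) :
    Finite 𝒲.Sel ∧ 𝒲.tab = 1 := by
  haveI := sel_subsingleton_of_mink 𝒲 htriv p hI hopen hunr
  exact ⟨Finite.of_subsingleton, 𝒲.tab_eq_one_of_trivial htriv⟩

end Marked

end Fermat.Agent.GZ.Dev.Arith
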