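/-
GATE-Z (S15) / count, ARITH (helper20 6089 (b); helper90): **Kummer evaluation of a rank-one piece
over `ℚ`** — from the Hilbert-90 datum and the local shapes delivered by LOC-r to the named binders
`CobHyp` / `RealHyp` of `Arith/Hyp.lean`.

`P` a `G_ℚ`-module, `ψ : P → ℚ̄` an injective equivariant character onto `μ_r` (`MuChar`).
For a cochain `x : G_ℚ → P`:

* `H90 ψ x`     : `∃ β ≠ 0, ∀ σ, ψ (x σ) * β = σ β`   (Hilbert 90 datum, = helper94 EVAL's `hβx`);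
* `MuLoc ψ r x` : for every prime `l` there is ONE `A | l` with
                  (a) `x` is a coboundary on `I_A` (unramified at `l`; at the level `p` this is the
                      `SelZ` condition), or
                  (b) every Hilbert-90 datum of `x` is a unit class at `A`
                      (`∃ c ∈ ℚˣ, (c β)ʳ ∈ Aˣ` = EVAL `exists_unit_class`).
Then
* `exists_dCob_of_mu` (`r` odd)  : `x = dCob w`;
* `eq_zero_of_mu_two` (`r = 2`)  : `x c₀ = 0` for a `c₀` with `c₀ √-1 = -√-1` forces `x = 0`;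
* `cobHyp_of_mu`, `realHyp_of_mu` : the same for all `x ∈ 𝒫.SelZ` of a marked piece.
-/
import Mathlib
import Fermat.Agent.GZ.Dev.Arith.KumQ
import Fermat.Agent.GZ.Dev.Arith.Hyp

set_option autoImplicit false

namespace Fermat.Agent.GZ.Dev.Arith

open Fermat.Agent.Common_helper32

local notation "GQ" => (AlgebraicClosure ℚ ≃ₐ[ℚ] AlgebraicClosure ℚ)

/-- a `G_ℚ`-fixed element of `ℚ̄` is rational. -/
theorem exists_rat_of_forall_fixed (c : Qb) (hc : ∀ σ : GQ, σ c = c) :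
    ∃ q : ℚ, ((q : ℚ) : Qb) = c := by
  have : Algebra.IsAlgebraic ℚ Qb := AlgebraicClosure.isAlgebraic ℚ
  have : IsAlgClosure ℚ Qb := ⟨inferInstance, inferInstance⟩
  have : IsGalois ℚ Qb := IsAlgClosure.isGalois ℚ _
  obtain ⟨q, hq⟩ := (InfiniteGalois.mem_range_algebraMap_iff_fixed c).mpr hc
  exact ⟨q, hq⟩

variable {P : Type*} [AddCommGroup P] [DistribMulAction GQ P]

/-- an injective equivariant character of `P` onto the `r`-th roots of unity of `ℚ̄`. -/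
structure MuChar (P : Type*) [AddCommGroup P] [DistribMulAction GQ P] (r : ℕ) where
  /-- the character. -/
  ψ : P → Qb
  map_add : ∀ u v : P, ψ (u + v) = ψ u * ψ v
  injective : Function.Injective ψ
  equivariant : ∀ (σ : GQ) (w : P), ψ (σ • w) = σ (ψ w)
  pow_eq_one : ∀ w : P, ψ w ^ r = 1
  surj : ∀ ζ : Qb, ζ ^ r = 1 → ∃ w : P, ψ w = ζ

namespace MuChar

variable {r : ℕ} (Ψ : MuChar P r)

theorem map_zero : Ψ.ψ 0 = 1 := by
  have h := Ψ.map_add 0 0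
  rw [add_zero] at h
  have h0 : Ψ.ψ 0 ≠ 0 := by
    intro h0
    rcases Nat.eq_zero_or_pos r with hr | hr
    · -- `r = 0`: every `ζ` is a root, so `ψ` hits `2`, and `ψ 0 * ψ w = ψ w`
      obtain ⟨w, hw⟩ := Ψ.surj 2 (by rw [hr, pow_zero])
      have := Ψ.map_add 0 w
      rw [zero_add, h0, zero_mul, hw] at this
      exact two_ne_zero this
    · have := Ψ.pow_eq_one 0
      rw [h0, zero_pow hr.ne'] at this
      exact zero_ne_one this
  have : Ψ.ψ 0 * 1 = Ψ.ψ 0 * Ψ.ψ 0 := by rw [mul_one]; exact h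
  exact (mul_left_cancel₀ h0 this).symm

theorem ne_zero (w : P) : Ψ.ψ w ≠ 0 := by
  intro h
  have := Ψ.map_add w (-w)
  rw [add_neg_cancel, Ψ.map_zero, h, zero_mul] at this
  exact one_ne_zero this

theorem map_sub (u v : P) : Ψ.ψ (u - v) = Ψ.ψ u / Ψ.ψ v := by
  rw [eq_div_iff (Ψ.ne_zero v), ← Ψ.map_add, sub_add_cancel]

/-- a `MuChar` from a faithful equivariant character of a module of order `r`. -/
def ofCard [Finite P] {r : ℕ} (hr : 0 < r) (hcard : Nat.card P = r) (ψ : P → Qb)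
    (map_add : ∀ u v : P, ψ (u + v) = ψ u * ψ v) (injective : Function.Injective ψ)
    (equivariant : ∀ (σ : GQ) (w : P), ψ (σ • w) = σ (ψ w)) (pow_eq_one : ∀ w : P, ψ w ^ r = 1) :
    MuChar P r where
  ψ := ψ
  map_add := map_add
  injective := injective
  equivariant := equivariant
  pow_eq_one := pow_eq_one
  surj := by
    classical
    haveI := Fintype.ofFinite P
    intro ζ hζ
    have hsub : Finset.univ.image ψ ⊆ Polynomial.nthRootsFinset r (1 : Qb) := by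
      intro z hz
      obtain ⟨w, -, rfl⟩ := Finset.mem_image.mp hz
      exact (Polynomial.mem_nthRootsFinset hr 1).mpr (pow_eq_one w)
    have hc1 : (Finset.univ.image ψ).card = r := by
      rw [Finset.card_image_of_injective _ injective, Finset.card_univ, ← Nat.card_eq_fintype_card,
        hcard]
    have hc2 : (Polynomial.nthRootsFinset r (1 : Qb)).card ≤ r := by
      unfold Polynomial.nthRootsFinset
      exact le_trans (Multiset.toFinset_card_le _) (Polynomial.card_nthRoots r 1)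
    have heq := Finset.eq_of_subset_of_card_le hsub (by rw [hc1]; exact hc2)
    have hmem : ζ ∈ Finset.univ.image ψ := by
      rw [heq]
      exact (Polynomial.mem_nthRootsFinset hr 1).mpr hζ
    obtain ⟨w, -, hw⟩ := Finset.mem_image.mp hmem
    exact ⟨w, hw⟩

end MuChar

/-- the Hilbert 90 datum of a cochain. -/
def H90 {r : ℕ} (Ψ : MuChar P r) (x : GQ → P) : Prop :=
  ∃ β : Qb, β ≠ 0 ∧ ∀ σ : GQ, Ψ.ψ (x σ) * β = σ β

/-- the local shapes: at every prime `l` one place `A | l` at which `x` is a coboundary on inertia,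
or every Hilbert 90 datum of `x` is a unit class. -/
def MuLoc {r : ℕ} (Ψ : MuChar P r) (x : GQ → P) : Prop :=
  ∀ l : ℕ, l.Prime → ∃ A : ValuationSubring Qb, A.LiesOverPrime l ∧
    ((∃ w₀ : P, ∀ σ ∈ A.inertiaSubgroupIn ℚ, x σ = σ • w₀ - w₀) ∨
      (∀ β : Qb, β ≠ 0 → (∀ σ : GQ, Ψ.ψ (x σ) * β = σ β) →
        ∃ c : ℚ, c ≠ 0 ∧ (((c : ℚ) : Qb) * β) ^ r ∈ A ∧ ((((c : ℚ) : Qb) * β) ^ r)⁻¹ ∈ A))

section Core

variable {r : ℕ} (Ψ : MuChar P r) {x : GQ → P}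

/-- the Kummer class `a = βʳ ∈ ℚˣ` and its local conditions. -/
theorem exists_kummer_class {β : Qb} (hβ0 : β ≠ 0) (hβ : ∀ σ : GQ, Ψ.ψ (x σ) * β = σ β)
    (hloc : MuLoc Ψ x) :
    ∃ a : ℚ, a ≠ 0 ∧ β ^ r = ((a : ℚ) : Qb) ∧
      ∀ l : ℕ, l.Prime → ∃ A : ValuationSubring Qb, A.LiesOverPrime l ∧ KumLoc r a A := by
  have hfix : ∀ σ : GQ, σ (β ^ r) = β ^ r := by
    intro σ
    rw [map_pow, ← hβ σ, mul_pow, Ψ.pow_eq_one, one_mul]
  obtain ⟨a, ha⟩ := exists_rat_of_forall_fixed (β ^ r) hfix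
  have ha0 : a ≠ 0 := by
    rintro rfl
    rw [Rat.cast_zero] at ha
    exact pow_ne_zero r hβ0 ha.symm
  refine ⟨a, ha0, ha.symm, fun l hl => ?_⟩
  obtain ⟨A, hA, hcase⟩ := hloc l hl
  refine ⟨A, hA, ?_⟩
  rcases hcase with ⟨w₀, hw₀⟩ | hunit
  · -- `γ := β / ψ w₀` is fixed by inertia
    refine ⟨β / Ψ.ψ w₀, 1, one_ne_zero, div_ne_zero hβ0 (Ψ.ne_zero w₀), ?_, Or.inl ?_⟩
    · rw [div_pow, Ψ.pow_eq_one, div_one, one_pow, one_mul, ha]
    · intro σ hσ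
      rw [map_div₀, ← hβ σ, hw₀ σ hσ, Ψ.map_sub, ← Ψ.equivariant]
      have h1 := Ψ.ne_zero (σ • w₀)
      have h2 := Ψ.ne_zero w₀
      field_simp
  · obtain ⟨c, hc, h1, h2⟩ := hunit β hβ0 hβ
    refine ⟨((c : ℚ) : Qb) * β, c, hc, mul_ne_zero (by exact_mod_cast hc) hβ0, ?_, Or.inr ⟨h1, h2⟩⟩
    rw [mul_pow, ← ha]
    push_cast
    rfl

/-- **`r` odd**: a cochain with a Hilbert 90 datum and the local shapes is a coboundary. -/
theorem exists_dCob_of_mu (hr : Odd r) (hH : H90 Ψ x) (hloc : MuLoc Ψ x) :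
    ∃ w : P, x = dCob GQ w := by
  obtain ⟨β, hβ0, hβ⟩ := hH
  obtain ⟨a, ha0, hβa, hK⟩ := exists_kummer_class Ψ hβ0 hβ hloc
  obtain ⟨b, ζ, hb0, hζ, hβζ⟩ := kumQ_odd hr ha0 β hβa hK
  obtain ⟨w, hw⟩ := Ψ.surj ζ hζ
  refine ⟨w, ?_⟩
  funext σ
  apply Ψ.injective
  have hbQ : ((b : ℚ) : Qb) ≠ 0 := by exact_mod_cast hb0
  have hσb : σ ((b : ℚ) : Qb) = ((b : ℚ) : Qb) := by
    have : ((b : ℚ) : Qb) = algebraMap ℚ Qb b := rfl
    rw [this, AlgEquiv.commutes]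
  have h1 := hβ σ
  rw [hβζ, map_mul, hσb, ← hw, ← Ψ.equivariant] at h1
  -- `ψ (x σ) * (ψ w * b) = ψ (σ • w) * b`
  rw [dCob_apply, Ψ.map_sub, eq_div_iff (Ψ.ne_zero w)]
  have h2 : Ψ.ψ (x σ) * Ψ.ψ w * ((b : ℚ) : Qb) = Ψ.ψ (σ • w) * ((b : ℚ) : Qb) := by
    rw [mul_assoc]; exact h1
  exact mul_right_cancel₀ hbQ h2

/-- **`r = 2`, real**: if moreover `x c₀ = 0` for a `c₀` with `c₀ √-1 = -√-1` then `x = 0`. -/
theorem eq_zero_of_mu_two (Ψ : MuChar P 2) {x : GQ → P} (hH : H90 Ψ x) (hloc : MuLoc Ψ x)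
    (c₀ : GQ) (i₀ : Qb) (hi : i₀ ^ 2 = -1) (hc : c₀ i₀ = -i₀) (hx : x c₀ = 0) : x = 0 := by
  obtain ⟨β, hβ0, hβ⟩ := hH
  obtain ⟨a, ha0, hβa, hK⟩ := exists_kummer_class Ψ hβ0 hβ hloc
  have hfix : c₀ β = β := by
    rw [← hβ c₀, hx, Ψ.map_zero, one_mul]
  obtain ⟨b, hb⟩ := kumQ_two ha0 β hβa hK c₀ i₀ hi hc hfix
  funext σ
  apply Ψ.injective
  have hσb : σ β = β := by
    have : ((b : ℚ) : Qb) = algebraMap ℚ Qb b := rfl
    rw [hb, this, AlgEquiv.commutes]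
  have h1 := hβ σ
  rw [hσb] at h1
  have : Ψ.ψ (x σ) * β = 1 * β := by rw [one_mul]; exact h1
  rw [Pi.zero_apply, Ψ.map_zero]
  exact mul_right_cancel₀ hβ0 this

end Core

section Marked

variable {D I : Subgroup GQ} {r : ℕ}

/-- **`μ_r`-piece, `r` odd**: Hilbert 90 + local shapes for the plain Selmer cocycles give
`CobHyp`. -/
theorem cobHyp_of_mu (𝒲 : Marked D I P) (Ψ : MuChar P r) (hr : Odd r)
    (hH : ∀ x ∈ 𝒲.SelZ, H90 Ψ x) (hloc : ∀ x ∈ 𝒲.SelZ, MuLoc Ψ x) : CobHyp 𝒲 :=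
  fun x hx => exists_dCob_of_mu Ψ hr (hH x hx) (hloc x hx)

/-- **`r = 2`**: Hilbert 90 + local shapes for the plain Selmer cocycles give `RealHyp` at any
`c₀` acting by `-1` on `√-1`. -/
theorem realHyp_of_mu (𝒲 : Marked D I P) (Ψ : MuChar P 2)
    (hH : ∀ x ∈ 𝒲.SelZ, H90 Ψ x) (hloc : ∀ x ∈ 𝒲.SelZ, MuLoc Ψ x)
    (c₀ : GQ) (i₀ : Qb) (hi : i₀ ^ 2 = -1) (hc : c₀ i₀ = -i₀) : RealHyp 𝒲 c₀ :=
  fun x hx hx0 => eq_zero_of_mu_two Ψ (hH x hx) (hloc x hx) c₀ i₀ hi hc hx0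

/-- the local shape at the level: a plain Selmer cocycle is a coboundary on `I`. -/
theorem exists_coboundary_on_I (𝒲 : Marked D I P) {x : GQ → P} (hx : x ∈ 𝒲.SelZ) :
    ∃ w₀ : P, ∀ σ ∈ I, x σ = σ • w₀ - w₀ := hx.2.2

end Marked

end Fermat.Agent.GZ.Dev.Arith
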